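import Mathlib
import Fermat.Prelude.Def_CuspForm_IntegralLattice
import Fermat.Prelude.Def_CuspForm_IntegralStructure
import Fermat.Prelude.Def_CuspForm_HeckeAlgebra
import Fermat.Prelude.Thm_CuspForm_intLattice_fg
import Fermat.Prelude.Thm_CuspForm_mem_intLattice_of_mem_heckeAlgebra
import Fermat.Prelude.Thm_ModularFormClass_qCoeff_heckeT
import Fermat.Prelude.Thm_ModularFormClass_qCoeff_heckeU
import Fermat.Prelude.Thm_CongruenceSubgroup_one_mem_strictPeriods_Gamma0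
import Fermat.Prelude.Thm_ModularForm_sturm_bound_Gamma0

set_option autoImplicit false

namespace Fermat.Agent.Helper2

open UpperHalfPlane ModularForm ModularFormClass
open scoped MatrixGroups

noncomputable section

variable {N : ℕ} {k : ℤ}

local notation "Γ₀(" N ")" => CongruenceSubgroup.Gamma0 N

theorem hΓ0 (N : ℕ) :
    (1 : ℝ) ∈ (Subgroup.map (Matrix.SpecialLinearGroup.mapGL ℝ) Γ₀(N)).strictPeriods :=
  CongruenceSubgroup.one_mem_strictPeriods_Gamma0 N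

theorem qCoeff_cusp_add (f g : CuspForm Γ₀(N) k) (n : ℕ) :
    qCoeff ⇑(f + g) n = qCoeff ⇑f n + qCoeff ⇑g n := by
  simp only [qCoeff, FunLike.coe_add]
  rw [ModularForm.qExpansion_add one_pos (hΓ0 N) f g, map_add]

theorem qCoeff_cusp_zero (n : ℕ) : qCoeff ⇑(0 : CuspForm Γ₀(N) k) n = 0 := by
  simp only [qCoeff, FunLike.coe_zero]
  rw [UpperHalfPlane.qExpansion_zero, map_zero]

theorem qCoeff_cusp_smul (c : ℂ) (f : CuspForm Γ₀(N) k) (n : ℕ) :
    qCoeff ⇑(c • f) n = c * qCoeff ⇑f n := by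
  have h1 : ⇑(c • f) = c • ⇑f := by
    ext z
    simp
  simp only [qCoeff, h1]
  rw [ModularForm.qExpansion_smul one_pos (hΓ0 N) c f]
  simp

theorem qCoeff_cusp_zsmul (c : ℤ) (f : CuspForm Γ₀(N) k) (n : ℕ) :
    qCoeff ⇑(c • f) n = c * qCoeff ⇑f n := by
  have h1 : c • f = (c : ℂ) • f := by
    ext z
    simp
  rw [h1, qCoeff_cusp_smul]

theorem qCoeff_cusp_neg (f : CuspForm Γ₀(N) k) (n : ℕ) :
    qCoeff ⇑(-f) n = - qCoeff ⇑f n := by
  have h1 : -f = (-1 : ℂ) • f := by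
    ext z
    simp
  rw [h1, qCoeff_cusp_smul]
  ring

theorem qCoeff_cusp_sub (f g : CuspForm Γ₀(N) k) (n : ℕ) :
    qCoeff ⇑(f - g) n = qCoeff ⇑f n - qCoeff ⇑g n := by
  rw [sub_eq_add_neg, qCoeff_cusp_add, qCoeff_cusp_neg, sub_eq_add_neg]

theorem qCoeff_cusp_idx_zero (f : CuspForm Γ₀(N) k) : qCoeff ⇑f 0 = 0 :=
  CuspFormClass.qExpansion_coeff_zero f one_pos (hΓ0 N)

/-- The q-coefficient map, as a linear map. -/
def qCoeffLin (N : ℕ) (k : ℤ) (n : ℕ) : CuspForm Γ₀(N) k →ₗ[ℂ] ℂ where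
  toFun f := qCoeff ⇑f n
  map_add' f g := qCoeff_cusp_add f g n
  map_smul' c f := by
    rw [RingHom.id_apply, smul_eq_mul]
    exact qCoeff_cusp_smul c f n

/-- Sturm bound number. -/
def sturmNum (N : ℕ) (k : ℤ) : ℕ := (k * (Γ₀(N)).index).toNat / 12

/-- A cusp form on `Γ₀(N)` is determined by its first few q-coefficients. -/
theorem cusp_eq_zero_of_qCoeff [NeZero N] (f : CuspForm Γ₀(N) k)
    (h : ∀ n ≤ sturmNum N k, qCoeff ⇑f n = 0) : f = 0 := by
  have hmf : (ModularFormClass.modularForm f : ModularForm Γ₀(N) k) = 0 := by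
    refine ModularForm.sturm_bound_Gamma0 N _ fun n hn ↦ ?_
    exact h n hn
  ext z
  exact DFunLike.congr_fun hmf z

theorem cusp_ext_qCoeff [NeZero N] (f g : CuspForm Γ₀(N) k)
    (h : ∀ n, qCoeff ⇑f n = qCoeff ⇑g n) : f = g := by
  rw [← sub_eq_zero]
  apply cusp_eq_zero_of_qCoeff
  intro n _
  rw [qCoeff_cusp_sub, h n, sub_self]

/-- Truncated q-expansion, as a linear map. -/
def truncLin (N : ℕ) (k : ℤ) : CuspForm Γ₀(N) k →ₗ[ℂ] (Fin (sturmNum N k + 1) → ℂ) :=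
  LinearMap.pi fun i => qCoeffLin N k i

theorem truncLin_injective (N : ℕ) [NeZero N] (k : ℤ) : Function.Injective (truncLin N k) := by
  rw [← LinearMap.ker_eq_bot, LinearMap.ker_eq_bot']
  intro f hf
  apply cusp_eq_zero_of_qCoeff
  intro n hn
  have := congrFun hf ⟨n, Nat.lt_succ_of_le hn⟩
  simpa [truncLin, qCoeffLin] using this

instance cuspForm_Gamma0_finiteDimensional (N : ℕ) [NeZero N] (k : ℤ) :
    FiniteDimensional ℂ (CuspForm Γ₀(N) k) :=
  FiniteDimensional.of_injective (truncLin N k) (truncLin_injective N k)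

/-! ### Hecke operators on q-coefficients -/

theorem qCoeff_heckeTLin {p : ℕ} (hp : p.Prime) (hpN : ¬ p ∣ N) (f : CuspForm Γ₀(N) k)
    (n : ℕ) : qCoeff ⇑(CuspForm.heckeTLin k hp hpN f) n = coeffHeckeT k p (qCoeff ⇑f) n := by
  rw [CuspForm.coe_heckeTLin_apply]
  exact ModularFormClass.qCoeff_heckeT f (hΓ0 N) hp.ne_zero n

theorem qCoeff_heckeULin [NeZero N] {p : ℕ} (hp : p.Prime) (hpN : p ∣ N) (f : CuspForm Γ₀(N) k)
    (n : ℕ) : qCoeff ⇑(CuspForm.heckeULin k hpN f) n = coeffHeckeU p (qCoeff ⇑f) n := by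
  rw [CuspForm.coe_heckeULin_apply]
  exact ModularFormClass.qCoeff_heckeU f (hΓ0 N) hp.ne_zero n

/-! ### The integral lattice -/

theorem mem_intLattice_iff' (f : CuspForm Γ₀(N) k) :
    f ∈ CuspForm.intLattice N k ↔ ∀ n : ℕ, ∃ m : ℤ, qCoeff ⇑f n = (m : ℂ) :=
  P2MW.S_CuspForm_intLattice_fg.W3WsD.mem_intLattice_iff f

theorem qIntegralSet_subset_intLattice (N : ℕ) :
    CuspForm.qIntegralSet N ⊆ (CuspForm.intLattice N 2 : Set (CuspForm Γ₀(N) 2)) := by
  intro f hf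
  rw [SetLike.mem_coe, mem_intLattice_iff']
  intro n
  obtain ⟨m, hm⟩ := Subring.mem_bot.1 (hf n)
  exact ⟨m, hm.symm⟩

theorem span_intLattice_eq_top (N : ℕ) (h : CuspForm.HasIntegralBasis N) :
    Submodule.span ℂ (CuspForm.intLattice N 2 : Set (CuspForm Γ₀(N) 2)) = ⊤ := by
  rw [eq_top_iff, ← h]
  exact Submodule.span_mono (qIntegralSet_subset_intLattice N)

/-- If all q-coefficients of a lattice element are divisible by `p`, it lies in `p • L`. -/
theorem exists_smul_eq_of_dvd_qCoeff (p : ℕ) (hp : p ≠ 0) (f : CuspForm Γ₀(N) k)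
    (h : ∀ n : ℕ, ∃ m : ℤ, qCoeff ⇑f n = ((p : ℤ) * m : ℤ)) :
    ∃ y ∈ CuspForm.intLattice N k, f = (p : ℤ) • y := by
  have hp' : (p : ℂ) ≠ 0 := by exact_mod_cast hp
  refine ⟨((p : ℂ)⁻¹) • f, ?_, ?_⟩
  · rw [mem_intLattice_iff']
    intro n
    obtain ⟨m, hm⟩ := h n
    refine ⟨m, ?_⟩
    rw [qCoeff_cusp_smul, hm]
    push_cast
    field_simp
  · ext z
    simp only [FunLike.coe_smul, Pi.smul_apply, smul_eq_mul, zsmul_eq_mul]
    push_cast
    field_simp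

end

end Fermat.Agent.Helper2
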