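import Mathlib

set_option autoImplicit false

namespace Fermat.Agent.Helper2

open Module

variable {K V : Type*} [Field K] [IsAlgClosed K] [AddCommGroup V] [Module K V]
  [FiniteDimensional K V]

/-- A commuting set of endomorphisms of a finite-dimensional vector space over an algebraically
closed field has a common eigenvector inside any nonzero stable subspace. -/
theorem exists_common_eigenvector (S : Set (Module.End K V))
    (hS : ∀ a ∈ S, ∀ b ∈ S, Commute a b) :
    ∀ (W : Submodule K V), W ≠ ⊥ → (∀ a ∈ S, ∀ w ∈ W, a w ∈ W) →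
      ∃ v ∈ W, v ≠ 0 ∧ ∀ a ∈ S, ∃ μ : K, a v = μ • v := by
  intro W
  induction hn : finrank K W using Nat.strong_induction_on generalizing W with
  | _ n ih =>
    intro hW hstab
    by_cases hall : ∀ a ∈ S, ∃ μ : K, ∀ w ∈ W, a w = μ • w
    · obtain ⟨v, hv, hv0⟩ := (Submodule.ne_bot_iff W).1 hW
      exact ⟨v, hv, hv0, fun a ha => let ⟨μ, h⟩ := hall a ha; ⟨μ, h v hv⟩⟩
    · push Not at hall
      obtain ⟨a, ha, hna⟩ := hall
      have hmaps : Set.MapsTo a W W := fun w hw => hstab a ha w hw
      have : Nontrivial W := Submodule.nontrivial_iff_ne_bot.2 hW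
      obtain ⟨μ, hμ⟩ := Module.End.exists_eigenvalue (a.restrict hmaps)
      obtain ⟨w, hw⟩ := hμ.exists_hasEigenvector
      set W' : Submodule K V := W ⊓ Module.End.eigenspace a μ with hW'
      have hW'ne : W' ≠ ⊥ := by
        rw [Submodule.ne_bot_iff]
        refine ⟨(w : V), ⟨w.2, ?_⟩, ?_⟩
        · rw [SetLike.mem_coe, Module.End.mem_eigenspace_iff]
          have := hw.apply_eq_smul
          have h2 := congrArg Subtype.val this
          simpa using h2
        · intro h0
          exact hw.2 (Subtype.ext h0)
      have hW'lt : W' < W := by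
        refine lt_of_le_of_ne inf_le_left ?_
        intro heq
        obtain ⟨w', hw', hne⟩ := hna μ
        apply hne
        have : w' ∈ W' := heq ▸ hw'
        exact Module.End.mem_eigenspace_iff.1 this.2
      have hstab' : ∀ b ∈ S, ∀ x ∈ W', b x ∈ W' := by
        intro b hb x hx
        refine ⟨hstab b hb x hx.1, ?_⟩
        rw [SetLike.mem_coe, Module.End.mem_eigenspace_iff] at *
        have hx2 := hx.2
        rw [SetLike.mem_coe, Module.End.mem_eigenspace_iff] at hx2
        have hc : a (b x) = b (a x) := by
          have := hS a ha b hb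
          have h3 := congrArg (fun f : Module.End K V => f x) this.eq
          simpa using h3
        rw [hc, hx2, map_smul]
      have hlt : finrank K W' < n := by
        rw [← hn]
        exact Submodule.finrank_lt_finrank_of_lt hW'lt
      obtain ⟨v, hv, hv0, hvS⟩ := ih _ hlt W' rfl hW'ne hstab'
      exact ⟨v, hv.1, hv0, hvS⟩

end Fermat.Agent.Helper2
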