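import Mathlib
import Fermat.Agent.Helper2.CommonEigen

set_option autoImplicit false

namespace Fermat.Agent.Helper2

open Module

variable {K V : Type*} [Field K] [AddCommGroup V] [Module K V]
variable {R : Type*} [CommRing R]

theorem commute_rho (ρ : R →+* Module.End K V) (a b : R) : Commute (ρ a) (ρ b) := by
  unfold Commute SemiconjBy
  rw [← map_mul, ← map_mul, mul_comm]

/-- The subspace of vectors killed by some element outside the prime `𝔪`. -/
def torsionOutside (ρ : R →+* Module.End K V) (𝔪 : Ideal R) [h𝔪 : 𝔪.IsPrime] :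
    Submodule K V where
  carrier := {v | ∃ s : R, s ∉ 𝔪 ∧ ρ s v = 0}
  add_mem' := by
    rintro v w ⟨s, hs, hsv⟩ ⟨s', hs', hsw⟩
    refine ⟨s * s', fun h => (h𝔪.mem_or_mem h).elim hs hs', ?_⟩
    rw [map_add]
    have h1 : ρ (s * s') v = ρ s' (ρ s v) := by
      rw [mul_comm, map_mul]; rfl
    have h2 : ρ (s * s') w = ρ s (ρ s' w) := by
      rw [map_mul]; rfl
    rw [h1, h2, hsv, hsw, map_zero, map_zero, add_zero]
  zero_mem' := ⟨1, fun h => h𝔪.ne_top ((Ideal.eq_top_iff_one _).2 h), by simp⟩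
  smul_mem' := by
    rintro c v ⟨s, hs, hsv⟩
    exact ⟨s, hs, by rw [map_smul, hsv, smul_zero]⟩

theorem mem_torsionOutside (ρ : R →+* Module.End K V) (𝔪 : Ideal R) [𝔪.IsPrime] (v : V) :
    v ∈ torsionOutside ρ 𝔪 ↔ ∃ s : R, s ∉ 𝔪 ∧ ρ s v = 0 := Iff.rfl

theorem torsionOutside_ne_top [FiniteDimensional K V] (ρ : R →+* Module.End K V) (𝔪 : Ideal R) [h𝔪 : 𝔪.IsPrime]
    (hker : ∀ s : R, ρ s = 0 → s ∈ 𝔪) : torsionOutside ρ 𝔪 ≠ ⊤ := by
  classical
  intro htop
  let b := Module.finBasis K V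
  have hb : ∀ i, ∃ s : R, s ∉ 𝔪 ∧ ρ s (b i) = 0 := fun i => by
    have : b i ∈ torsionOutside ρ 𝔪 := htop ▸ Submodule.mem_top
    exact this
  choose s hs hsb using hb
  have hprod : (∏ i, s i) ∉ 𝔪 := by
    intro h
    obtain ⟨i, -, hi⟩ := (h𝔪.prod_mem_iff).1 h
    exact hs i hi
  apply hprod
  apply hker
  apply b.ext
  intro i
  rw [← Finset.prod_erase_mul _ _ (Finset.mem_univ i), map_mul]
  change ρ _ (ρ (s i) (b i)) = (0 : Module.End K V) (b i)
  rw [hsb i, map_zero]
  rfl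

/-- Existence of an eigenvector whose eigencharacter is nonvanishing off the prime `𝔪`. -/
theorem exists_eigenvector_character [IsAlgClosed K] [FiniteDimensional K V] (ρ : R →+* Module.End K V) (𝔪 : Ideal R) [h𝔪 : 𝔪.IsPrime]
    (hker : ∀ s : R, ρ s = 0 → s ∈ 𝔪) :
    ∃ (g : V) (χ : R →+* K), g ≠ 0 ∧ (∀ t : R, ρ t g = χ t • g) ∧ (∀ s : R, s ∉ 𝔪 → χ s ≠ 0) := by
  classical
  have hdecomp : ⨆ χ : R → K, ⨅ t, (ρ t).maxGenEigenspace (χ t) = ⊤ :=
    Module.End.iSup_iInf_maxGenEigenspace_eq_top_of_iSup_maxGenEigenspace_eq_top_of_commute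
      (fun t => ρ t) (fun a b _ => commute_rho ρ a b)
      (fun t => Module.End.iSup_maxGenEigenspace_eq_top (ρ t))
  -- there is a character whose generalised eigenspace is not inside the torsion part
  have hex : ∃ χ : R → K, ¬ (⨅ t, (ρ t).maxGenEigenspace (χ t)) ≤ torsionOutside ρ 𝔪 := by
    by_contra hcon
    push Not at hcon
    apply torsionOutside_ne_top ρ 𝔪 hker
    rw [eq_top_iff, ← hdecomp]
    exact iSup_le hcon
  obtain ⟨χ, hχ⟩ := hex
  set W : Submodule K V := ⨅ t, (ρ t).maxGenEigenspace (χ t) with hW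
  have hWne : W ≠ ⊥ := by
    intro h0
    apply hχ
    rw [h0]
    exact bot_le
  -- χ does not vanish outside 𝔪
  have hχS : ∀ s : R, s ∉ 𝔪 → χ s ≠ 0 := by
    intro s hs h0
    apply hχ
    intro v hv
    have hv' : v ∈ (ρ s).maxGenEigenspace (χ s) := (Submodule.mem_iInf _).1 hv s
    rw [h0, Module.End.mem_maxGenEigenspace] at hv'
    obtain ⟨k, hk⟩ := hv'
    refine ⟨s ^ k, fun h => hs (h𝔪.mem_of_pow_mem k h), ?_⟩
    rw [map_pow]
    simpa using hk
  -- W is stable
  have hstab : ∀ a ∈ Set.range ρ, ∀ w ∈ W, a w ∈ W := by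
    rintro _ ⟨a, rfl⟩ w hw
    rw [hW, Submodule.mem_iInf] at hw ⊢
    intro t
    exact Module.End.mapsTo_maxGenEigenspace_of_comm (commute_rho ρ t a) (χ t) (hw t)
  obtain ⟨g, hgW, hg0, hgS⟩ := exists_common_eigenvector (Set.range ρ)
    (by rintro _ ⟨a, rfl⟩ _ ⟨b, rfl⟩; exact commute_rho ρ a b) W hWne hstab
  -- the eigenvalues are given by χ
  have heig : ∀ t : R, ρ t g = χ t • g := by
    intro t
    obtain ⟨μ, hμ⟩ := hgS (ρ t) ⟨t, rfl⟩
    have hgt : g ∈ (ρ t).maxGenEigenspace (χ t) := (Submodule.mem_iInf _).1 hgW t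
    rw [Module.End.mem_maxGenEigenspace] at hgt
    obtain ⟨k, hk⟩ := hgt
    have hpow : ∀ n : ℕ, ((ρ t - χ t • (1 : Module.End K V)) ^ n) g = (μ - χ t) ^ n • g := by
      intro n
      induction n with
      | zero => simp
      | succ n ih =>
        rw [pow_succ', Module.End.mul_apply, ih, map_smul]
        have : (ρ t - χ t • (1 : Module.End K V)) g = (μ - χ t) • g := by
          simp [hμ, sub_smul]
        rw [this, smul_smul, pow_succ]
    rw [hpow k] at hk
    have hz : (μ - χ t) ^ k = 0 := by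
      rcases smul_eq_zero.1 hk with h | h
      · exact h
      · exact absurd h hg0
    have : μ = χ t := by
      by_cases hk0 : k = 0
      · subst hk0; simp at hz
      · exact sub_eq_zero.1 (pow_eq_zero_iff hk0 |>.1 hz)
    rw [hμ, this]
  have hinj : ∀ a b : K, a • g = b • g → a = b := fun a b hab =>
    smul_left_injective K hg0 hab
  refine ⟨g, { toFun := χ, map_one' := ?_, map_mul' := ?_, map_zero' := ?_, map_add' := ?_ },
    hg0, heig, hχS⟩
  · apply hinj
    rw [← heig, map_one, one_smul]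
    rfl
  · intro a b
    apply hinj
    rw [← heig, map_mul, Module.End.mul_apply, heig b, map_smul, heig a, smul_smul, mul_comm]
  · apply hinj
    rw [← heig, map_zero, zero_smul]
    rfl
  · intro a b
    apply hinj
    rw [← heig, map_add, LinearMap.add_apply, heig a, heig b, add_smul]

end Fermat.Agent.Helper2
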