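import Mathlib
import Fermat.Prelude.Thm_ModularForm_sturm_bound_Gamma0

set_option autoImplicit false

namespace Fermat.Agent.Helper2

open UpperHalfPlane ModularForm
open scoped MatrixGroups

/-- The index of `Γ₀(N)` in `SL(2, ℤ)` is at most `N ^ 2`. -/
theorem index_Gamma0_le (N : ℕ) [NeZero N] :
    (CongruenceSubgroup.Gamma0 N).index ≤ N ^ 2 := by
  classical
  have hcard : Nat.card (ZMod N × ZMod N) = N ^ 2 := by
    rw [Nat.card_prod, Nat.card_zmod, sq]
  rw [← hcard, Subgroup.index]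
  refine Nat.card_le_card_of_injective
    (fun q : SL(2, ℤ) ⧸ CongruenceSubgroup.Gamma0 N =>
      (((q.out 0 0 : ℤ) : ZMod N), ((q.out 1 0 : ℤ) : ZMod N))) ?_
  intro q q' h
  simp only [Prod.mk.injEq] at h
  obtain ⟨h1, h2⟩ := h
  rw [← QuotientGroup.out_eq' q, ← QuotientGroup.out_eq' q', QuotientGroup.eq]
  rw [CongruenceSubgroup.Gamma0_mem]
  have hinv := Matrix.SpecialLinearGroup.SL2_inv_expl q.out
  have : ((q.out⁻¹ * q'.out : SL(2, ℤ)) 1 0 : ℤ) =
      - (q.out 1 0) * (q'.out 0 0) + (q.out 0 0) * (q'.out 1 0) := by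
    rw [Matrix.SpecialLinearGroup.coe_mul, hinv, Matrix.mul_apply]
    simp [Fin.sum_univ_two]
  rw [this]
  push_cast
  rw [← h1, ← h2]
  ring

theorem one_mem_strictPeriods_Gamma0' (N : ℕ) : (1 : ℝ) ∈
    (CongruenceSubgroup.Gamma0 N : Subgroup (GL (Fin 2) ℝ)).strictPeriods := by
  simp [CongruenceSubgroup.strictPeriods_Gamma0]

/-- A cusp form on `Γ₀(N)` whose Sturm bound is zero vanishes. -/
theorem cuspForm_Gamma0_eq_zero_of_sturm_zero (N : ℕ) [NeZero N] (k : ℤ)
    (hk : (k * (CongruenceSubgroup.Gamma0 N).index).toNat / 12 = 0)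
    (f : CuspForm (CongruenceSubgroup.Gamma0 N) k) : f = 0 := by
  have key : (ModularFormClass.modularForm f :
      ModularForm (CongruenceSubgroup.Gamma0 N) k) = 0 := by
    apply ModularForm.sturm_bound_Gamma0 N
    intro n hn
    have hn0 : n = 0 := by omega
    subst hn0
    exact CuspFormClass.qExpansion_coeff_zero f one_pos (one_mem_strictPeriods_Gamma0' N)
  ext z
  exact DFunLike.congr_fun key z

/-- Cusp forms of nonpositive weight on `Γ₀(N)` vanish. -/
theorem cuspForm_Gamma0_eq_zero_of_weight_nonpos (N : ℕ) [NeZero N] (k : ℤ) (hk : k ≤ 0)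
    (f : CuspForm (CongruenceSubgroup.Gamma0 N) k) : f = 0 := by
  apply cuspForm_Gamma0_eq_zero_of_sturm_zero N k _ f
  have : k * ((CongruenceSubgroup.Gamma0 N).index : ℤ) ≤ 0 :=
    mul_nonpos_of_nonpos_of_nonneg hk (by positivity)
  rw [Int.toNat_of_nonpos this]

end Fermat.Agent.Helper2
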