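import Mathlib
import Fermat.Prelude.Def_CuspForm_IntegralLattice

set_option autoImplicit false

namespace Fermat.Agent.Helper2

open EisensteinWeightOne

/-- The Eisenstein series `E_{1,χ}` is congruent to `1` modulo `3`. -/
theorem e1Chi3In_int_eq :
    e1Chi3In ℤ = 1 + (3 : PowerSeries ℤ) *
      PowerSeries.mk (fun n => if n = 0 then 0 else 2 * sigmaChi n) := by
  ext n
  have h3 : (3 : PowerSeries ℤ) = PowerSeries.C (3 : ℤ) := by
    simp
  rw [e1Chi3In, PowerSeries.coeff_map, e1Chi3, PowerSeries.coeff_mk, map_add, h3,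
    PowerSeries.coeff_C_mul, PowerSeries.coeff_mk, PowerSeries.coeff_one]
  by_cases hn : n = 0
  · simp [hn]
  · simp [hn]
    ring

theorem bridgeProduct_coeff (a : ℕ → ℤ) (n : ℕ) :
    ∃ m : ℤ, (bridgeProduct a).coeff n = a n + 3 * m := by
  refine ⟨(PowerSeries.mk a *
      PowerSeries.mk (fun n => if n = 0 then 0 else 2 * sigmaChi n)).coeff n, ?_⟩
  have h3 : (3 : PowerSeries ℤ) = PowerSeries.C (3 : ℤ) := by
    simp
  rw [bridgeProduct, e1Chi3In_int_eq, mul_add, mul_one, map_add, PowerSeries.coeff_mk,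
    mul_left_comm, h3, PowerSeries.coeff_C_mul]

theorem chiNegThree_cast_zmod (ℓ : ℕ) : ((chiNegThree ℓ : ℤ) : ZMod 3) = (ℓ : ZMod 3) := by
  have h : (ℓ : ZMod 3) = ((ℓ % 3 : ℕ) : ZMod 3) := by
    rw [ZMod.natCast_mod]
  rw [h]
  have hlt : ℓ % 3 < 3 := Nat.mod_lt _ (by norm_num)
  have hcases : ℓ % 3 = 0 ∨ ℓ % 3 = 1 ∨ ℓ % 3 = 2 := by omega
  rcases hcases with h0 | h1 | h2
  · simp [chiNegThree, h0]
  · simp [chiNegThree, h1]
  · simp [chiNegThree, h2]
    decide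

end Fermat.Agent.Helper2
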