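import Mathlib
import Fermat.Agent.Helper2.EigenChar

set_option autoImplicit false

namespace Fermat.Agent.Helper2

open Module

section Lattice

variable {K V : Type*} [Field K] [AddCommGroup V] [Module K V]

/-- The subring of endomorphisms stabilising the `ℤ`-lattice `L`. -/
def stabSubring (L : Submodule ℤ V) : Subring (Module.End K V) where
  carrier := {t | ∀ x ∈ L, t x ∈ L}
  mul_mem' := fun ha hb x hx => ha _ (hb x hx)
  one_mem' := fun _ hx => hx
  add_mem' := fun ha hb x hx => L.add_mem (ha x hx) (hb x hx)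
  zero_mem' := fun _ _ => L.zero_mem
  neg_mem' := fun ha x hx => L.neg_mem (ha x hx)

/-- Restriction of lattice-stabilising endomorphisms to the lattice. -/
def stabRes (L : Submodule ℤ V) : stabSubring (K := K) L →+* Module.End ℤ L where
  toFun t :=
    { toFun := fun x => ⟨t.1 x.1, t.2 x.1 x.2⟩
      map_add' := fun x y => Subtype.ext (by simp)
      map_smul' := fun n x => Subtype.ext (by simp) }
  map_one' := by ext; rfl
  map_mul' := fun a b => by ext; rfl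
  map_zero' := by ext; rfl
  map_add' := fun a b => by ext; rfl

theorem stabRes_injective (L : Submodule ℤ V) (hLspan : Submodule.span K (L : Set V) = ⊤) :
    Function.Injective (stabRes (K := K) L) := by
  rw [injective_iff_map_eq_zero]
  intro t ht
  apply Subtype.ext
  apply LinearMap.ext_on hLspan
  intro x hx
  have := congrArg (fun φ : Module.End ℤ L => ((φ ⟨x, hx⟩ : L) : V)) ht
  simpa [stabRes] using this

theorem isIntegral_of_stab (L : Submodule ℤ V) (hLfg : L.FG)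
    (hLspan : Submodule.span K (L : Set V) = ⊤) (t : Module.End K V)
    (ht : ∀ x ∈ L, t x ∈ L) : IsIntegral ℤ t := by
  have hfin : Module.Finite ℤ L := Module.Finite.iff_fg.2 hLfg
  have h1 : IsIntegral ℤ (stabRes (K := K) L ⟨t, ht⟩) := Algebra.IsIntegral.isIntegral _
  have h2 : IsIntegral ℤ (⟨t, ht⟩ : stabSubring (K := K) L) :=
    (isIntegral_algHom_iff (stabRes (K := K) L).toIntAlgHom (stabRes_injective L hLspan)).1 h1
  exact h2.map (stabSubring (K := K) L).subtype.toIntAlgHom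

end Lattice

section Ideal

variable {R : Type*} [CommRing R] {V : Type*} [AddCommGroup V] [Module ℂ V]

/-- The ideal of operators sending `f` into `p • L`. -/
def congIdeal (ρ : R →+* Module.End ℂ V) (L : Submodule ℤ V)
    (hLstab : ∀ t : R, ∀ x ∈ L, ρ t x ∈ L) (p : ℕ) (f : V) : Ideal R where
  carrier := {t | ∃ y ∈ L, ρ t f = (p : ℤ) • y}
  add_mem' := by
    rintro a b ⟨y, hy, h⟩ ⟨y', hy', h'⟩
    exact ⟨y + y', L.add_mem hy hy', by rw [map_add, LinearMap.add_apply, h, h', smul_add]⟩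
  zero_mem' := ⟨0, L.zero_mem, by simp⟩
  smul_mem' := by
    rintro c t ⟨y, hy, h⟩
    refine ⟨ρ c y, hLstab c y hy, ?_⟩
    rw [smul_eq_mul, map_mul, Module.End.mul_apply, h, map_zsmul]

theorem mem_congIdeal (ρ : R →+* Module.End ℂ V) (L : Submodule ℤ V)
    (hLstab : ∀ t : R, ∀ x ∈ L, ρ t x ∈ L) (p : ℕ) (f : V) (t : R) :
    t ∈ congIdeal ρ L hLstab p f ↔ ∃ y ∈ L, ρ t f = (p : ℤ) • y := Iff.rfl

theorem rho_intCast_apply (ρ : R →+* Module.End ℂ V) (c : ℤ) (v : V) :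
    ρ (c : R) v = c • v := by
  rw [map_intCast]
  simp [Module.End.intCast_apply]

theorem sub_intCast_mem_congIdeal (ρ : R →+* Module.End ℂ V) (L : Submodule ℤ V)
    (hLstab : ∀ t : R, ∀ x ∈ L, ρ t x ∈ L) (p : ℕ) (f : V) (t : R) (c : ℤ) :
    t - (c : R) ∈ congIdeal ρ L hLstab p f ↔ ∃ y ∈ L, ρ t f - c • f = (p : ℤ) • y := by
  rw [mem_congIdeal, map_sub, LinearMap.sub_apply, rho_intCast_apply]

theorem intCast_mem_congIdeal_iff (ρ : R →+* Module.End ℂ V) (L : Submodule ℤ V)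
    (hLstab : ∀ t : R, ∀ x ∈ L, ρ t x ∈ L) (p : ℕ) (hp : p.Prime) (f : V) (hfL : f ∈ L)
    (hf : ∀ y ∈ L, f ≠ (p : ℤ) • y) (c : ℤ) :
    (c : R) ∈ congIdeal ρ L hLstab p f ↔ (p : ℤ) ∣ c := by
  constructor
  · rintro ⟨y, hy, h⟩
    rw [rho_intCast_apply] at h
    by_contra hndvd
    have hcop : IsCoprime c (p : ℤ) := by
      have hpp : Prime (p : ℤ) := Nat.prime_iff_prime_int.1 hp
      exact (hpp.coprime_iff_not_dvd.2 hndvd).symm
    obtain ⟨u, v, huv⟩ := hcop
    apply hf (u • y + v • f) (L.add_mem (L.smul_mem u hy) (L.smul_mem v hfL))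
    calc f = (1 : ℤ) • f := (one_smul ℤ f).symm
      _ = (u * c + v * p) • f := by rw [huv]
      _ = u • (c • f) + (v * p) • f := by rw [add_smul, mul_smul]
      _ = u • ((p : ℤ) • y) + (v * p) • f := by rw [h]
      _ = (p : ℤ) • (u • y + v • f) := by
        rw [smul_add, smul_smul, smul_smul, smul_smul, mul_comm u, mul_comm v]
  · rintro ⟨c', rfl⟩
    refine ⟨c' • f, L.smul_mem c' hfL, ?_⟩
    rw [rho_intCast_apply, mul_smul]

theorem congIdeal_isMaximal (ρ : R →+* Module.End ℂ V) (L : Submodule ℤ V)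
    (hLstab : ∀ t : R, ∀ x ∈ L, ρ t x ∈ L) (p : ℕ) (hp : p.Prime) (f : V) (hfL : f ∈ L)
    (hf : ∀ y ∈ L, f ≠ (p : ℤ) • y)
    (hc : ∀ t : R, ∃ c : ℤ, ∃ y ∈ L, ρ t f - c • f = (p : ℤ) • y) :
    (congIdeal ρ L hLstab p f).IsMaximal := by
  set 𝔪 := congIdeal ρ L hLstab p f with h𝔪
  have hpmem : ((p : ℤ) : R) ∈ 𝔪 :=
    (intCast_mem_congIdeal_iff ρ L hLstab p hp f hfL hf p).2 dvd_rfl
  rw [Ideal.isMaximal_iff]
  refine ⟨?_, ?_⟩
  · intro h1
    have : ((1 : ℤ) : R) ∈ 𝔪 := by simpa using h1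
    have hdvd := (intCast_mem_congIdeal_iff ρ L hLstab p hp f hfL hf 1).1 this
    have : (p : ℤ) = 1 ∨ (p : ℤ) = -1 := Int.isUnit_iff.1 (isUnit_of_dvd_one hdvd)
    have hp2 := hp.two_le
    omega
  · intro J x hle hx hxJ
    obtain ⟨c, hcx⟩ := hc x
    have hxc : x - (c : R) ∈ 𝔪 := (sub_intCast_mem_congIdeal ρ L hLstab p f x c).2 hcx
    have hndvd : ¬ (p : ℤ) ∣ c := by
      intro hd
      apply hx
      have hcm : (c : R) ∈ 𝔪 := (intCast_mem_congIdeal_iff ρ L hLstab p hp f hfL hf c).2 hd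
      have := 𝔪.add_mem hxc hcm
      simpa using this
    have hcop : IsCoprime c (p : ℤ) := by
      have hpp : Prime (p : ℤ) := Nat.prime_iff_prime_int.1 hp
      exact (hpp.coprime_iff_not_dvd.2 hndvd).symm
    obtain ⟨u, v, huv⟩ := hcop
    have h1 : (1 : R) = (u : R) * x - (u : R) * (x - (c : R)) + (v : R) * ((p : ℤ) : R) := by
      have : ((u * c + v * p : ℤ) : R) = 1 := by rw [huv]; simp
      rw [← this]
      push_cast
      ring
    rw [h1]
    exact J.add_mem (J.sub_mem (J.mul_mem_left _ hxJ) (J.mul_mem_left _ (hle hxc)))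
      (J.mul_mem_left _ (hle hpmem))

end Ideal

section Main

variable {R : Type*} [CommRing R] {V : Type*} [AddCommGroup V] [Module ℂ V]
  [FiniteDimensional ℂ V]

/-- The Deligne–Serre lifting lemma, in the form needed here. -/
theorem deligne_serre_lift
    (ρ : R →+* Module.End ℂ V) (hρ : Function.Injective ρ)
    (L : Submodule ℤ V) (hLfg : L.FG) (hLspan : Submodule.span ℂ (L : Set V) = ⊤)
    (hLstab : ∀ t : R, ∀ x ∈ L, ρ t x ∈ L)
    (p : ℕ) (hp : p.Prime)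
    (f : V) (hfL : f ∈ L) (hf : ∀ y ∈ L, f ≠ (p : ℤ) • y)
    (hc : ∀ t : R, ∃ c : ℤ, ∃ y ∈ L, ρ t f - c • f = (p : ℤ) • y) :
    ∃ (g : V) (χ : R →+* integralClosure ℤ ℂ) (𝔪' : Ideal (integralClosure ℤ ℂ)),
      g ≠ 0 ∧ 𝔪'.IsMaximal ∧ ((p : ℕ) : integralClosure ℤ ℂ) ∈ 𝔪' ∧
      (∀ t : R, ρ t g = ((χ t : integralClosure ℤ ℂ) : ℂ) • g) ∧
      (∀ (t : R) (c : ℤ), (∃ y ∈ L, ρ t f - c • f = (p : ℤ) • y) →
        χ t - (c : integralClosure ℤ ℂ) ∈ 𝔪') := by
  classical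
  set 𝔪 := congIdeal ρ L hLstab p f with h𝔪
  have hmax : 𝔪.IsMaximal := congIdeal_isMaximal ρ L hLstab p hp f hfL hf hc
  have hprime : 𝔪.IsPrime := hmax.isPrime
  have hker : ∀ s : R, ρ s = 0 → s ∈ 𝔪 := by
    intro s hs
    exact ⟨0, L.zero_mem, by rw [hs]; simp⟩
  obtain ⟨g, χ, hg0, heig, hχS⟩ := exists_eigenvector_character ρ 𝔪 hker
  -- integrality
  have hint : ∀ t : R, IsIntegral ℤ t := by
    intro t
    have h1 : IsIntegral ℤ (ρ t) := isIntegral_of_stab L hLfg hLspan (ρ t) (hLstab t)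
    exact (isIntegral_algHom_iff ρ.toIntAlgHom hρ).1 h1
  have hχint : ∀ t : R, χ t ∈ integralClosure ℤ ℂ := fun t => (hint t).map χ.toIntAlgHom
  let χ' : R →+* integralClosure ℤ ℂ := χ.codRestrict (integralClosure ℤ ℂ) hχint
  have hχ' : ∀ t, ((χ' t : integralClosure ℤ ℂ) : ℂ) = χ t := fun t => rfl
  letI : Algebra R (integralClosure ℤ ℂ) := χ'.toAlgebra
  have halg : algebraMap R (integralClosure ℤ ℂ) = χ' := rfl
  haveI : Algebra.IsIntegral R (integralClosure ℤ ℂ) := by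
    refine ⟨fun z => ?_⟩
    have hz : IsIntegral ℤ z := Algebra.IsIntegral.isIntegral z
    exact hz.tower_top
  have hkerle : RingHom.ker (algebraMap R (integralClosure ℤ ℂ)) ≤ 𝔪 := by
    intro s hs
    by_contra hsm
    apply hχS s hsm
    rw [RingHom.mem_ker, halg] at hs
    rw [← hχ' s, hs]
    rfl
  obtain ⟨𝔪', hmax', hcomap⟩ := Ideal.exists_ideal_over_maximal_of_isIntegral 𝔪 hkerle
  have hmem : ∀ s ∈ 𝔪, χ' s ∈ 𝔪' := by
    intro s hs
    have : s ∈ 𝔪'.comap (algebraMap R (integralClosure ℤ ℂ)) := hcomap ▸ hs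
    exact this
  refine ⟨g, χ', 𝔪', hg0, hmax', ?_, ?_, ?_⟩
  · have hpmem : ((p : ℤ) : R) ∈ 𝔪 :=
      (intCast_mem_congIdeal_iff ρ L hLstab p hp f hfL hf p).2 dvd_rfl
    have := hmem _ hpmem
    simpa using this
  · intro t
    rw [hχ' t]
    exact heig t
  · intro t c htc
    have hmem' : t - (c : R) ∈ 𝔪 := (sub_intCast_mem_congIdeal ρ L hLstab p f t c).2 htc
    have := hmem _ hmem'
    simpa using this

end Main

end Fermat.Agent.Helper2
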