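import Mathlib
import Fermat.Prelude.Def_FormalHecke_Eigensystem

set_option autoImplicit false

namespace Fermat.Agent.Helper2

open FormalHecke

variable {R : Type*} [CommRing R]

/-- A formal Hecke eigensystem is multiplicative on coprime arguments. -/
theorem isEigensystem_mul_of_coprime {e a : ℕ → R} (h : IsEigensystem e a) :
    ∀ m n : ℕ, m.Coprime n → a (m * n) = a m * a n := by
  intro m
  induction m using Nat.strong_induction_on with
  | _ m ih =>
    intro n hmn
    rcases Nat.eq_zero_or_pos m with rfl | hm0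
    · have hn : n = 1 := by simpa using hmn
      subst hn
      simp [h.1]
    rcases eq_or_ne m 1 with rfl | hm1
    · simp [h.1]
    obtain ⟨ℓ, hℓ, m', rfl⟩ := Nat.exists_prime_and_dvd hm1
    have hm'pos : 0 < m' := Nat.pos_of_mul_pos_left hm0 |> fun _ => by
      rcases Nat.eq_zero_or_pos m' with rfl | h'
      · simp at hm0
      · exact h'
    have hlt : m' < ℓ * m' := by
      have := hℓ.two_le
      nlinarith
    have hℓn : ℓ.Coprime n := Nat.Coprime.coprime_dvd_left (dvd_mul_right ℓ m') hmn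
    have hm'n : m'.Coprime n := Nat.Coprime.coprime_dvd_left (dvd_mul_left m' ℓ) hmn
    have hℓndvd : ¬ ℓ ∣ n := fun hd => by
      have := Nat.eq_one_of_dvd_coprimes hℓn (dvd_refl ℓ) hd
      exact hℓ.one_lt.ne' this
    have e1 := h.2 ℓ hℓ (m' * n)
    have e2 := h.2 ℓ hℓ m'
    have e3 := ih m' hlt n hm'n
    by_cases hd : ℓ ∣ m'
    · obtain ⟨m'', rfl⟩ := hd
      have hm''lt : m'' < ℓ * (ℓ * m'') := by
        have := hℓ.two_le
        have h0 : 0 < m'' := by
          rcases Nat.eq_zero_or_pos m'' with rfl | h'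
          · simp at hm'pos
          · exact h'
        nlinarith
      have hm''n : m''.Coprime n := Nat.Coprime.coprime_dvd_left (dvd_mul_left m'' ℓ) hm'n
      have e4 := ih m'' hm''lt n hm''n
      have hd1 : ℓ ∣ ℓ * m'' * n := Dvd.dvd.mul_right (dvd_mul_right ℓ m'') n
      have hq1 : ℓ * m'' * n / ℓ = m'' * n := by
        rw [mul_assoc, Nat.mul_div_cancel_left _ hℓ.pos]
      have hq2 : ℓ * m'' / ℓ = m'' := Nat.mul_div_cancel_left _ hℓ.pos
      rw [if_pos hd1, hq1, e4] at e1
      rw [if_pos (dvd_mul_right ℓ m''), hq2] at e2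
      rw [e3] at e1
      have : a (ℓ * (ℓ * m'') * n) = a (ℓ * (ℓ * m'' * n)) := by ring_nf
      rw [this]
      linear_combination e1 - a n * e2
    · have hnd : ¬ ℓ ∣ m' * n := fun hdd => by
        rcases (Nat.Prime.dvd_mul hℓ).1 hdd with h' | h'
        · exact hd h'
        · exact hℓndvd h'
      rw [if_neg hnd, e3] at e1
      rw [if_neg hd] at e2
      have : a (ℓ * m' * n) = a (ℓ * (m' * n)) := by ring_nf
      rw [this]
      linear_combination e1 - a n * e2

/-- A formal Hecke eigensystem satisfies the prime-power recursion. -/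
theorem isEigensystem_prime_pow {e a : ℕ → R} (h : IsEigensystem e a)
    (ℓ r : ℕ) (hℓ : ℓ.Prime) :
    a (ℓ ^ (r + 2)) = a ℓ * a (ℓ ^ (r + 1)) - e ℓ * a (ℓ ^ r) := by
  have e1 := h.2 ℓ hℓ (ℓ ^ (r + 1))
  have hd : ℓ ∣ ℓ ^ (r + 1) := dvd_pow_self ℓ (Nat.succ_ne_zero r)
  have hq : ℓ ^ (r + 1) / ℓ = ℓ ^ r := by
    rw [pow_succ, Nat.mul_div_cancel _ hℓ.pos]
  rw [if_pos hd, hq] at e1
  have : ℓ ^ (r + 2) = ℓ * ℓ ^ (r + 1) := by ring
  rw [this]
  linear_combination e1

theorem isRecursive_of_isEigensystem {e a : ℕ → R} (h : IsEigensystem e a) :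
    IsRecursive e a :=
  ⟨h.1, isEigensystem_mul_of_coprime h, fun ℓ r hℓ => isEigensystem_prime_pow h ℓ r hℓ⟩

end Fermat.Agent.Helper2
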