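import Mathlib
import Fermat.Agent.Helper2.Bridge
import Fermat.Agent.Helper2.CuspLattice
import Fermat.Agent.Helper2.DeligneSerre
import Fermat.Agent.Helper2.FormalHeckeRec
import Fermat.Prelude.Def_FormalHecke_Eigensystem
import Fermat.Prelude.Def_FLTPrelim_Modularity

set_option autoImplicit false

namespace Fermat.Agent.Helper2

open UpperHalfPlane ModularForm ModularFormClass EisensteinWeightOne

noncomputable section

local notation "Γ₀(" N ")" => CongruenceSubgroup.Gamma0 N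

/-- The inclusion of the full weight-2 Hecke algebra into the endomorphism ring. -/
def rhoHecke (N : ℕ) [NeZero N] :
    CuspForm.heckeAlgebra N 2 ∅ →+* Module.End ℂ (CuspForm Γ₀(N) 2) where
  toFun t := t.1
  map_one' := rfl
  map_mul' _ _ := rfl
  map_zero' := rfl
  map_add' _ _ := rfl

theorem rhoHecke_injective (N : ℕ) [NeZero N] : Function.Injective (rhoHecke N) :=
  fun _ _ h => Subtype.ext h

theorem rhoHecke_stab (N : ℕ) [NeZero N] (t : CuspForm.heckeAlgebra N 2 ∅)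
    (x : CuspForm Γ₀(N) 2) (hx : x ∈ CuspForm.intLattice N 2) :
    rhoHecke N t x ∈ CuspForm.intLattice N 2 :=
  CuspForm.mem_intLattice_of_mem_heckeAlgebra (by norm_num) t.2 hx

section Data

variable {N : ℕ} [NeZero N] {a : ℕ → ℤ}
  (heig : FormalHecke.IsEigensystem
      (fun ℓ => if ℓ ∣ N then 0 else ((chiNegThree ℓ : ℤ) : ℤ)) a)
  (f : CuspForm Γ₀(N) 2) (af : ℕ → ℤ) (haf : ∀ n, (af n : ℂ) = qCoeff ⇑f n)
  (hcong : ∀ n, ((af n : ℤ) : ZMod 3) = ((a n : ℤ) : ZMod 3))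

include haf in
theorem data_f_mem : f ∈ CuspForm.intLattice N 2 :=
  (mem_intLattice_iff' f).2 fun n => ⟨af n, (haf n).symm⟩

include heig haf hcong in
theorem data_f_not_mem (y : CuspForm Γ₀(N) 2) (hy : y ∈ CuspForm.intLattice N 2) :
    f ≠ ((3 : ℕ) : ℤ) • y := by
  intro hfy
  obtain ⟨m, hm⟩ := (mem_intLattice_iff' y).1 hy 1
  have h1 : qCoeff ⇑f 1 = ((3 * m : ℤ) : ℂ) := by
    rw [hfy, qCoeff_cusp_zsmul, hm]
    push_cast
    ring
  rw [← haf 1] at h1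
  have h2 : af 1 = 3 * m := by exact_mod_cast h1
  have h3 := hcong 1
  rw [h2, heig.1] at h3
  push_cast at h3
  have h4 : (3 : ZMod 3) = 0 := by decide
  rw [h4, zero_mul] at h3
  exact absurd h3 (by decide)

include heig haf hcong in
theorem data_gen_T {ℓ : ℕ} (hℓ : ℓ.Prime) (hℓN : ¬ ℓ ∣ N) :
    ∃ y ∈ CuspForm.intLattice N 2,
      CuspForm.heckeTLin 2 hℓ hℓN f - (a ℓ) • f = ((3 : ℕ) : ℤ) • y := by
  apply exists_smul_eq_of_dvd_qCoeff 3 (by norm_num)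
  intro n
  set z : ℤ := af (n * ℓ) + (if ℓ ∣ n then (ℓ : ℤ) * af (n / ℓ) else 0) - a ℓ * af n with hz
  have hzc : qCoeff ⇑(CuspForm.heckeTLin 2 hℓ hℓN f - (a ℓ) • f) n = (z : ℂ) := by
    rw [qCoeff_cusp_sub, qCoeff_cusp_zsmul, qCoeff_heckeTLin, coeffHeckeT_apply, ← haf, ← haf,
      ← haf, hz]
    have h21 : ((2 : ℤ) - 1) = 1 := by norm_num
    rw [h21, zpow_one]
    split_ifs <;> push_cast <;> ring
  have hz0 : ((z : ℤ) : ZMod 3) = 0 := by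
    have he := heig.2 ℓ hℓ n
    simp only [if_neg hℓN] at he
    have he' := congrArg (fun x : ℤ => (x : ZMod 3)) he
    rw [hz]
    by_cases hd : ℓ ∣ n
    · rw [if_pos hd] at he' ⊢
      push_cast at he' ⊢
      rw [hcong, hcong, hcong]
      rw [chiNegThree_cast_zmod, mul_comm ℓ n] at he'
      rw [← he']
      ring
    · rw [if_neg hd] at he' ⊢
      push_cast at he' ⊢
      rw [hcong, hcong]
      rw [mul_comm ℓ n] at he'
      rw [← he']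
      ring
  obtain ⟨m, hm⟩ := (ZMod.intCast_zmod_eq_zero_iff_dvd z 3).1 hz0
  exact ⟨m, by rw [hzc, hm]⟩

include heig haf hcong in
theorem data_gen_U {q : ℕ} (hq : q.Prime) (hqN : q ∣ N) :
    ∃ y ∈ CuspForm.intLattice N 2,
      CuspForm.heckeULin 2 hqN f - (a q) • f = ((3 : ℕ) : ℤ) • y := by
  apply exists_smul_eq_of_dvd_qCoeff 3 (by norm_num)
  intro n
  set z : ℤ := af (n * q) - a q * af n with hz
  have hzc : qCoeff ⇑(CuspForm.heckeULin 2 hqN f - (a q) • f) n = (z : ℂ) := by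
    rw [qCoeff_cusp_sub, qCoeff_cusp_zsmul, qCoeff_heckeULin hq, coeffHeckeU_apply, ← haf, ← haf,
      hz]
    push_cast
    ring
  have hz0 : ((z : ℤ) : ZMod 3) = 0 := by
    have he := heig.2 q hq n
    simp only [if_pos hqN, zero_mul, add_zero] at he
    have he' := congrArg (fun x : ℤ => (x : ZMod 3)) he
    rw [hz]
    push_cast at he' ⊢
    rw [hcong, hcong, mul_comm n q, he']
    ring
  obtain ⟨m, hm⟩ := (ZMod.intCast_zmod_eq_zero_iff_dvd z 3).1 hz0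
  exact ⟨m, by rw [hzc, hm]⟩

include heig haf hcong in
theorem data_hc (t : Module.End ℂ (CuspForm Γ₀(N) 2)) (ht : t ∈ CuspForm.heckeAlgebra N 2 ∅) :
    ∃ c : ℤ, ∃ y ∈ CuspForm.intLattice N 2, t f - c • f = ((3 : ℕ) : ℤ) • y := by
  refine Algebra.adjoin_induction
    (p := fun t _ => ∃ c : ℤ, ∃ y ∈ CuspForm.intLattice N 2, t f - c • f = ((3 : ℕ) : ℤ) • y)
    ?_ ?_ ?_ ?_ ht
  · rintro x (⟨ℓ, hℓ, hℓN, -, rfl⟩ | ⟨q, hqN, hq, -, rfl⟩)
    · exact ⟨a ℓ, data_gen_T heig f af haf hcong hℓ hℓN⟩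
    · exact ⟨a q, data_gen_U heig f af haf hcong hq hqN⟩
  · intro r
    refine ⟨r, 0, Submodule.zero_mem _, ?_⟩
    rw [Algebra.algebraMap_eq_smul_one, LinearMap.smul_apply, Module.End.one_apply, sub_self,
      smul_zero]
  · rintro x y _ _ ⟨c, u, hu, hxu⟩ ⟨c', u', hu', hyu⟩
    refine ⟨c + c', u + u', Submodule.add_mem _ hu hu', ?_⟩
    rw [LinearMap.add_apply, add_smul, smul_add, ← hxu, ← hyu]
    abel
  · rintro x y hx _ ⟨c, u, hu, hxu⟩ ⟨c', u', hu', hyu⟩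
    refine ⟨c * c', x u' + c' • u, Submodule.add_mem _
      (CuspForm.mem_intLattice_of_mem_heckeAlgebra (by norm_num) hx hu')
      (Submodule.smul_mem _ _ hu), ?_⟩
    have h1 : y f = c' • f + ((3 : ℕ) : ℤ) • u' := by rw [← hyu]; abel
    have h2 : x f = c • f + ((3 : ℕ) : ℤ) • u := by rw [← hxu]; abel
    rw [Module.End.mul_apply, h1, map_add, map_zsmul, map_zsmul, h2]
    module

end Data

section Eigen

variable {N : ℕ} [NeZero N]

/-- The character governing the weight-2 Hecke recursion on `Γ₀(N)`. -/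
def levelChar (N : ℕ) : ℕ → ℂ := fun ℓ => if ℓ ∣ N then 0 else (ℓ : ℂ)

theorem eigen_relation_T (g : CuspForm Γ₀(N) 2) (lam : CuspForm.heckeAlgebra N 2 ∅ → ℂ)
    (hg : ∀ t, rhoHecke N t g = lam t • g) {ℓ : ℕ} (hℓ : ℓ.Prime) (hℓN : ¬ ℓ ∣ N) (n : ℕ) :
    qCoeff ⇑g (ℓ * n) + (ℓ : ℂ) * (if ℓ ∣ n then qCoeff ⇑g (n / ℓ) else 0) =
      lam (CuspForm.heckeAlgebra.T hℓ hℓN (Set.notMem_empty ℓ)) * qCoeff ⇑g n := by
  have h1 := hg (CuspForm.heckeAlgebra.T hℓ hℓN (Set.notMem_empty ℓ))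
  have h2 : CuspForm.heckeTLin 2 hℓ hℓN g =
      lam (CuspForm.heckeAlgebra.T hℓ hℓN (Set.notMem_empty ℓ)) • g := h1
  have h3 := congrArg (fun F : CuspForm Γ₀(N) 2 => qCoeff ⇑F n) h2
  rw [qCoeff_heckeTLin, qCoeff_cusp_smul, coeffHeckeT_apply] at h3
  have h21 : ((2 : ℤ) - 1) = 1 := by norm_num
  rw [h21, zpow_one, mul_comm n ℓ] at h3
  rw [← h3]
  split_ifs <;> ring

theorem eigen_relation_U (g : CuspForm Γ₀(N) 2) (lam : CuspForm.heckeAlgebra N 2 ∅ → ℂ)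
    (hg : ∀ t, rhoHecke N t g = lam t • g) {ℓ : ℕ} (hℓ : ℓ.Prime) (hℓN : ℓ ∣ N) (n : ℕ) :
    qCoeff ⇑g (ℓ * n) =
      lam (CuspForm.heckeAlgebra.U hℓ hℓN (Set.notMem_empty ℓ)) * qCoeff ⇑g n := by
  have h1 := hg (CuspForm.heckeAlgebra.U hℓ hℓN (Set.notMem_empty ℓ))
  have h2 : CuspForm.heckeULin 2 hℓN g =
      lam (CuspForm.heckeAlgebra.U hℓ hℓN (Set.notMem_empty ℓ)) • g := h1
  have h3 := congrArg (fun F : CuspForm Γ₀(N) 2 => qCoeff ⇑F n) h2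
  rw [qCoeff_heckeULin hℓ, qCoeff_cusp_smul, coeffHeckeU_apply, mul_comm n ℓ] at h3
  exact h3

theorem eigen_relation (g : CuspForm Γ₀(N) 2) (lam : CuspForm.heckeAlgebra N 2 ∅ → ℂ)
    (hg : ∀ t, rhoHecke N t g = lam t • g) {ℓ : ℕ} (hℓ : ℓ.Prime) :
    ∃ μ : ℂ, ∀ n, qCoeff ⇑g (ℓ * n) +
      levelChar N ℓ * (if ℓ ∣ n then qCoeff ⇑g (n / ℓ) else 0) = μ * qCoeff ⇑g n := by
  by_cases hℓN : ℓ ∣ N
  · refine ⟨lam (CuspForm.heckeAlgebra.U hℓ hℓN (Set.notMem_empty ℓ)), fun n => ?_⟩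
    rw [levelChar, if_pos hℓN, zero_mul, add_zero]
    exact eigen_relation_U g lam hg hℓ hℓN n
  · refine ⟨lam (CuspForm.heckeAlgebra.T hℓ hℓN (Set.notMem_empty ℓ)), fun n => ?_⟩
    rw [levelChar, if_neg hℓN]
    exact eigen_relation_T g lam hg hℓ hℓN n

theorem eigen_qCoeff_one_ne_zero (g : CuspForm Γ₀(N) 2) (hg0 : g ≠ 0)
    (hrel : ∀ ℓ : ℕ, ℓ.Prime → ∃ μ : ℂ, ∀ n, qCoeff ⇑g (ℓ * n) +
      levelChar N ℓ * (if ℓ ∣ n then qCoeff ⇑g (n / ℓ) else 0) = μ * qCoeff ⇑g n) :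
    qCoeff ⇑g 1 ≠ 0 := by
  intro h1
  apply hg0
  apply cusp_ext_qCoeff
  intro n
  rw [qCoeff_cusp_zero]
  induction n using Nat.strong_induction_on with
  | _ n ih =>
    rcases Nat.eq_zero_or_pos n with rfl | hn0
    · exact qCoeff_cusp_idx_zero g
    rcases eq_or_ne n 1 with rfl | hn1
    · exact h1
    obtain ⟨ℓ, hℓ, m, rfl⟩ := Nat.exists_prime_and_dvd hn1
    obtain ⟨μ, hμ⟩ := hrel ℓ hℓ
    have hmpos : 0 < m := by
      rcases Nat.eq_zero_or_pos m with rfl | h'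
      · simp at hn0
      · exact h'
    have hlt : m < ℓ * m := by
      have := hℓ.two_le
      nlinarith
    have hlt2 : m / ℓ < ℓ * m := lt_of_le_of_lt (Nat.div_le_self m ℓ) hlt
    have e := hμ m
    rw [ih m hlt, ih (m / ℓ) hlt2] at e
    simpa using e

theorem eigen_isEigensystem (g : CuspForm Γ₀(N) 2) (h1 : qCoeff ⇑g 1 = 1)
    (hrel : ∀ ℓ : ℕ, ℓ.Prime → ∃ μ : ℂ, ∀ n, qCoeff ⇑g (ℓ * n) +
      levelChar N ℓ * (if ℓ ∣ n then qCoeff ⇑g (n / ℓ) else 0) = μ * qCoeff ⇑g n) :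
    FormalHecke.IsEigensystem (levelChar N) (fun n => qCoeff ⇑g n) := by
  refine ⟨h1, fun ℓ hℓ n => ?_⟩
  obtain ⟨μ, hμ⟩ := hrel ℓ hℓ
  have e1 := hμ 1
  have hnd : ¬ ℓ ∣ 1 := fun hd => hℓ.one_lt.ne' (Nat.dvd_one.1 hd)
  rw [if_neg hnd, mul_zero, add_zero, mul_one, h1, mul_one] at e1
  simp only
  rw [e1]
  exact hμ n

theorem isNormalizedEigenform_of_isEigensystem (g : CuspForm Γ₀(N) 2)
    (h : FormalHecke.IsEigensystem (levelChar N) (fun n => qCoeff ⇑g n)) :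
    g.IsNormalizedEigenform := by
  obtain ⟨a1, hmul, hrec⟩ := isRecursive_of_isEigensystem h
  refine ⟨a1, hmul, ?_, ?_⟩
  · intro p r hp hpN
    have := hrec p r hp
    simp only [levelChar, if_neg hpN] at this
    exact this
  · intro p r hp hpN
    have := hrec p r hp
    simp only [levelChar, if_pos hpN, zero_mul, sub_zero] at this
    exact this

end Eigen

section Main

open CongruenceSubgroup

theorem lifting_main {N : ℕ} [NeZero N] (h : CuspForm.HasIntegralBasis N) {a : ℕ → ℤ}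
    (heig : FormalHecke.IsEigensystem
      (fun ℓ => if ℓ ∣ N then 0 else ((chiNegThree ℓ : ℤ) : ℤ)) a)
    (hreal : CuspForm.IsLatticeRealized N a) :
    ∃ (f : CuspForm (Gamma0 N) 2) (_ : f.IsNormalizedEigenform)
      (𝔪' : Ideal (integralClosure ℤ ℂ)), 𝔪'.IsMaximal ∧
      ((3 : ℕ) : integralClosure ℤ ℂ) ∈ 𝔪' ∧
      ∀ (ℓ : ℕ) (_ : ℓ.Prime) (_ : ¬ ℓ ∣ N),
        ∃ c : integralClosure ℤ ℂ, (c : ℂ) = ModularFormClass.qCoeff f ℓ ∧
          c - (a ℓ : integralClosure ℤ ℂ) ∈ 𝔪' := by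
  obtain ⟨f, -, af, haf, h3⟩ := hreal
  have hcong : ∀ n, ((af n : ℤ) : ZMod 3) = ((a n : ℤ) : ZMod 3) := by
    intro n
    rw [ZMod.intCast_eq_intCast_iff_dvd_sub]
    obtain ⟨m, hm⟩ := bridgeProduct_coeff a n
    obtain ⟨k, hk⟩ := h3 n
    rw [hm] at hk
    exact ⟨-k - m, by push_cast; linarith⟩
  obtain ⟨g, χ, 𝔪', hg0, hmax, h3mem, hgeig, hcongr⟩ :=
    deligne_serre_lift (rhoHecke N) (rhoHecke_injective N) (CuspForm.intLattice N 2)
      (CuspForm.intLattice_fg N 2) (span_intLattice_eq_top N h) (rhoHecke_stab N) 3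
      Nat.prime_three f (data_f_mem f af haf) (data_f_not_mem heig f af haf hcong)
      (fun t => data_hc heig f af haf hcong t.1 t.2)
  set lam : CuspForm.heckeAlgebra N 2 ∅ → ℂ := fun t => ((χ t : integralClosure ℤ ℂ) : ℂ)
    with hlam
  have hrel := fun (ℓ : ℕ) (hℓ : ℓ.Prime) => eigen_relation g lam hgeig hℓ
  have hb1 : qCoeff ⇑g 1 ≠ 0 := eigen_qCoeff_one_ne_zero g hg0 hrel
  set g' : CuspForm (Gamma0 N) 2 := (qCoeff ⇑g 1)⁻¹ • g with hg'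
  have hg'eig : ∀ t, rhoHecke N t g' = lam t • g' := by
    intro t
    rw [hg', map_smul, hgeig t, smul_comm]
  have hrel' := fun (ℓ : ℕ) (hℓ : ℓ.Prime) => eigen_relation g' lam hg'eig hℓ
  have hg'1 : qCoeff ⇑g' 1 = 1 := by
    rw [hg', qCoeff_cusp_smul, inv_mul_cancel₀ hb1]
  refine ⟨g', isNormalizedEigenform_of_isEigensystem g' (eigen_isEigensystem g' hg'1 hrel'),
    𝔪', hmax, h3mem, ?_⟩
  intro ℓ hℓ hℓN
  refine ⟨χ (CuspForm.heckeAlgebra.T hℓ hℓN (Set.notMem_empty ℓ)), ?_, ?_⟩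
  · have e := eigen_relation_T g' lam hg'eig hℓ hℓN 1
    have hnd : ¬ ℓ ∣ 1 := fun hd => hℓ.one_lt.ne' (Nat.dvd_one.1 hd)
    rw [if_neg hnd, mul_zero, add_zero, mul_one, hg'1, mul_one] at e
    rw [e]
  · exact hcongr _ (a ℓ) (data_gen_T heig f af haf hcong hℓ hℓN)

end Main

end

end Fermat.Agent.Helper2
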